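import Mathlib
import Fermat.Prelude.Def_ModularCurve_PeriodHomPair
import Fermat.Prelude.Def_ModularCurve_GenusNumerics
import Fermat.Agent.S21.ParabolicBound
import Fermat.Agent.S21.PairInjective
import Fermat.Agent.S21.Primitive
import Fermat.Agent.S21.Parabolic

set_option autoImplicit false

/-!
# Final glue for S20 and S21

Everything except the lower bound `genusFormula N ≤ dim S₂(Γ₀(N))` (Riemann–Roch + dictionary):

* `gl_periodHomPair_injective`: the pair map is injective;
* `gl_finrank_cuspForm_le`: `dim S₂(Γ₀(N)) ≤ genusFormula N` (no Riemann–Roch);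
* `gl_s20_of_lower`, `gl_s21_of_lower`: the two frozen statements from the lower bound.
-/

namespace Fermat.Agent.S20

open CongruenceSubgroup Module ModularCurve ModularCurve.Period Fermat.Agent.S21
open scoped MatrixGroups

variable (N : ℕ) [NeZero N]

theorem gl_periodHomPair_injective : Function.Injective (periodHomPair N) :=
  pi_periodHomPair_injective N (fun f => ⟨_, s21_hasEquivariantPrimitive f⟩)
    (s21_existsPeriodMapLinear N)

/-- The pair map, corestricted to the parabolic homomorphisms. -/
noncomputable def gl_pairRestrict :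
    (CuspForm (Gamma0 N) 2 × CuspForm (Gamma0 N) 2) →ₗ[ℂ] ↥(parabolicHoms ℂ (Gamma0 N) ℂ) :=
  LinearMap.codRestrict (parabolicHoms ℂ (Gamma0 N) ℂ) (periodHomPair N)
    (fun p => s21_range_periodHomPair_le (N := N) ⟨p, rfl⟩)

theorem gl_pairRestrict_injective : Function.Injective (gl_pairRestrict N) := by
  intro p q h
  apply gl_periodHomPair_injective N
  exact congrArg Subtype.val h

theorem gl_finiteDimensional_prod :
    FiniteDimensional ℂ (CuspForm (Gamma0 N) 2 × CuspForm (Gamma0 N) 2) := by
  have := finiteDimensional_parabolicHoms N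
  exact FiniteDimensional.of_injective _ (gl_pairRestrict_injective N)

theorem gl_finiteDimensional_cuspForm : FiniteDimensional ℂ (CuspForm (Gamma0 N) 2) := by
  have := gl_finiteDimensional_prod N
  exact FiniteDimensional.of_injective (LinearMap.inl ℂ (CuspForm (Gamma0 N) 2)
    (CuspForm (Gamma0 N) 2)) LinearMap.inl_injective

/-- `2 dim S₂ ≤ dim Hom_par`. -/
theorem gl_two_mul_finrank_le :
    2 * finrank ℂ (CuspForm (Gamma0 N) 2) ≤ finrank ℂ ↥(parabolicHoms ℂ (Gamma0 N) ℂ) := by
  have := finiteDimensional_parabolicHoms N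
  have := gl_finiteDimensional_cuspForm N
  have h := LinearMap.finrank_le_finrank_of_injective (gl_pairRestrict_injective N)
  rw [Module.finrank_prod] at h
  omega

/-- **Upper bound** `dim S₂(Γ₀(N)) ≤ g`, without Riemann–Roch. -/
theorem gl_finrank_cuspForm_le :
    (finrank ℂ (CuspForm (Gamma0 N) 2) : ℚ) ≤ genusFormula N := by
  have h1 := gl_two_mul_finrank_le N
  have h2 := finrank_parabolicHoms_le N
  have h1' : (2 : ℚ) * finrank ℂ (CuspForm (Gamma0 N) 2)
      ≤ finrank ℂ ↥(parabolicHoms ℂ (Gamma0 N) ℂ) := by exact_mod_cast h1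
  linarith

/-- **S20 from the lower bound.** -/
theorem gl_s20_of_lower
    (hlow : genusFormula N ≤ (finrank ℂ (CuspForm (Gamma0 N) 2) : ℚ)) :
    (finrank ℂ (CuspForm (Gamma0 N) 2) : ℚ) = genusFormula N :=
  le_antisymm (gl_finrank_cuspForm_le N) hlow

/-- **S21 from the lower bound.** -/
theorem gl_s21_of_lower
    (hlow : genusFormula N ≤ (finrank ℂ (CuspForm (Gamma0 N) 2) : ℚ)) :
    Function.Injective (periodHomPair N)
      ∧ LinearMap.range (periodHomPair N) = parabolicHoms ℂ (Gamma0 N) ℂ := by
  refine ⟨gl_periodHomPair_injective N, ?_⟩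
  have := finiteDimensional_parabolicHoms N
  have := gl_finiteDimensional_cuspForm N
  apply Submodule.eq_of_le_of_finrank_le (s21_range_periodHomPair_le (N := N))
  rw [LinearMap.finrank_range_of_inj (gl_periodHomPair_injective N), Module.finrank_prod]
  have h2 := finrank_parabolicHoms_le N
  have h3 : (finrank ℂ ↥(parabolicHoms ℂ (Gamma0 N) ℂ) : ℚ)
      ≤ ((finrank ℂ (CuspForm (Gamma0 N) 2) + finrank ℂ (CuspForm (Gamma0 N) 2) : ℕ) : ℚ) := by
    push_cast
    linarith
  exact_mod_cast h3

end Fermat.Agent.S20
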