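import Mathlib
import Fermat.Agent.S20.Glue
import Fermat.Agent.S24.Assembly
import Fermat.Agent.S24.Hurwitz.Interface

/-!
# S20/S21: the final wrap

`gl_lower_of`: the lower bound `genusFormula N ≤ dim S₂(Γ₀(N))` from

* (A) existence of `g` independent regular differentials `h i • d j` on the function field
  (Dedekind–Weber count, shape of the architect's interface), and
* (B) the dictionary "independent regular differentials ↦ independent cusp forms".
-/

set_option autoImplicit false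

noncomputable section

namespace Fermat.Agent.S20

open AlgebraicCurve KaehlerDifferential IntermediateField ModularCurve MulAction Module
open CongruenceSubgroup ModularGroup
open Fermat.Agent.S24
open scoped MatrixGroups
open Br

set_option synthInstance.maxHeartbeats 400000 in
/-- Shape (A): regular differentials from the Hurwitz data (for the field `Fbar N` and `x = j`). -/
def gl_HypA (N : ℕ) [NeZero N] : Prop :=
  ∀ (S : Finset Kbar)
    (_hS : ∀ c ∉ S, (hw_placesOver (ff_jF N) c).ncard = Module.finrank Kbar⟮ff_jF N⟯ (Fbar N))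
    (g : ℕ)
    (_hg : 2 * (g : ℤ) - 2 = - 2 * (Module.finrank Kbar⟮ff_jF N⟯ (Fbar N) : ℤ)
      + ∑ c ∈ S, ((Module.finrank Kbar⟮ff_jF N⟯ (Fbar N) : ℤ) - (hw_placesOver (ff_jF N) c).ncard)
      + ((Module.finrank Kbar⟮ff_jF N⟯ (Fbar N) : ℤ)
          - (hw_placesAtInfty (K := Kbar) (ff_jF N)).ncard)),
    ∃ h : Fin g → Fbar N, LinearIndependent Kbar h ∧
      ∀ i (v : Place Kbar (Fbar N)), 0 ≤ v.ordDifferential (h i • D Kbar (Fbar N) (ff_jF N))

set_option synthInstance.maxHeartbeats 400000 in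
/-- Shape (B): the dictionary. -/
def gl_HypB (N : ℕ) [NeZero N] : Prop :=
  ∀ {r : ℕ} (h : Fin r → Fbar N), LinearIndependent Kbar h →
    (∀ i (v : Place Kbar (Fbar N)), 0 ≤ v.ordDifferential (h i • D Kbar (Fbar N) (ff_jF N))) →
    ∃ f : Fin r → CuspForm (Gamma0 N) 2, LinearIndependent ℂ f

set_option synthInstance.maxHeartbeats 400000 in
/-- **Lower bound** from (A) and (B). -/
theorem gl_lower_of (N : ℕ) [NeZero N] (hA : gl_HypA N) (hB : gl_HypB N) :
    genusFormula N ≤ (finrank ℂ (CuspForm (Gamma0 N) 2) : ℚ) := by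
  classical
  have := asm_finite N
  obtain ⟨g, hgnat⟩ := Comb.exists_genus_nat N
  have hS : ∀ c ∉ ({0, 1728} : Finset Kbar),
      (hw_placesOver (ff_jF N) c).ncard = Module.finrank Kbar⟮ff_jF N⟯ (Fbar N) := by
    intro c hc
    rw [Finset.mem_insert, Finset.mem_singleton, not_or] at hc
    rw [asm_finrank]
    exact asm_count_generic N c hc.1 hc.2
  have h01 : (0 : Kbar) ≠ 1728 := by norm_num
  have hrho : (hw_placesOver (ff_jF N) (0 : Kbar)).ncard
      = Nat.card (orbitRel.Quotient (Subgroup.zpowers (S * T)) (Comb.Q N)) := asm_count_rho N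
  have hI : (hw_placesOver (ff_jF N) (1728 : Kbar)).ncard
      = Nat.card (orbitRel.Quotient (Subgroup.zpowers S) (Comb.Q N)) := asm_count_I N
  have hinf : (hw_placesAtInfty (K := Kbar) (ff_jF N)).ncard
      = Nat.card (orbitRel.Quotient (Subgroup.zpowers T) (Comb.Q N)) := asm_count_infty N
  have hg : 2 * (g : ℤ) - 2 = - 2 * (Module.finrank Kbar⟮ff_jF N⟯ (Fbar N) : ℤ)
      + ∑ c ∈ ({0, 1728} : Finset Kbar),
          ((Module.finrank Kbar⟮ff_jF N⟯ (Fbar N) : ℤ) - (hw_placesOver (ff_jF N) c).ncard)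
      + ((Module.finrank Kbar⟮ff_jF N⟯ (Fbar N) : ℤ)
          - (hw_placesAtInfty (K := Kbar) (ff_jF N)).ncard) := by
    rw [Finset.sum_pair h01, hrho, hI, hinf, asm_finrank, ← hgnat]
    ring
  obtain ⟨h, hli, hreg⟩ := hA {0, 1728} hS g hg
  obtain ⟨f, hf⟩ := hB h hli hreg
  have := gl_finiteDimensional_cuspForm N
  have hcard := hf.fintype_card_le_finrank
  rw [Fintype.card_fin] at hcard
  -- `genusFormula N = g`
  have hH := Comb.hurwitz_count N
  have hq : ((Nat.card (Comb.Q N) : ℤ) : ℚ)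
      - ((Nat.card (orbitRel.Quotient (Subgroup.zpowers (S * T)) (Comb.Q N)) : ℤ) : ℚ)
      - ((Nat.card (orbitRel.Quotient (Subgroup.zpowers S) (Comb.Q N)) : ℤ) : ℚ)
      - ((Nat.card (orbitRel.Quotient (Subgroup.zpowers T) (Comb.Q N)) : ℤ) : ℚ)
      = 2 * (g : ℚ) - 2 := by
    exact_mod_cast congrArg (Int.cast : ℤ → ℚ) hgnat
  push_cast at hq
  have hgq : genusFormula N = (g : ℚ) := by linarith
  rw [hgq]
  exact_mod_cast hcard

/-- **S20** from (A) and (B). -/
theorem gl_s20_of (N : ℕ) [NeZero N] (hA : gl_HypA N) (hB : gl_HypB N) :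
    (finrank ℂ (CuspForm (Gamma0 N) 2) : ℚ) = genusFormula N :=
  gl_s20_of_lower N (gl_lower_of N hA hB)

/-- **S21** from (A) and (B). -/
theorem gl_s21_of (N : ℕ) [NeZero N] (hA : gl_HypA N) (hB : gl_HypB N) :
    Function.Injective (periodHomPair N)
      ∧ LinearMap.range (periodHomPair N) = Period.parabolicHoms ℂ (Gamma0 N) ℂ :=
  gl_s21_of_lower N (gl_lower_of N hA hB)

end Fermat.Agent.S20
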