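import Mathlib
import Fermat.Agent.S20.Wrap
import Fermat.Agent.S20.Count.Assemble
import Fermat.Agent.S20.Dict.Main

/-!
# S20/S21: the two interface statements (A), (B) and the lower bound
-/

set_option autoImplicit false

noncomputable section

namespace Fermat.Agent.S20

open AlgebraicCurve KaehlerDifferential IntermediateField ModularCurve MulAction Module
open CongruenceSubgroup ModularGroup
open Fermat.Agent.S24
open scoped MatrixGroups
open Br

set_option synthInstance.maxHeartbeats 400000 in
/-- (A): `g` independent regular differentials on the function field of `X₀(N)`. -/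
theorem gl_hypA (N : ℕ) [NeZero N] : gl_HypA N := by
  haveI := asm_finite N
  intro S hS g hg
  exact dwm_exists_regular (ff_jF N) (asm_transcendental N) S hS g hg

set_option synthInstance.maxHeartbeats 400000 in
/-- (B): the dictionary. -/
theorem gl_hypB (N : ℕ) [NeZero N] : gl_HypB N :=
  fun h hli hreg => ld_exists_linearIndependent N h hli hreg

/-- **S20.** -/
theorem gl_s20 (N : ℕ) [NeZero N] :
    (finrank ℂ (CuspForm (Gamma0 N) 2) : ℚ) = genusFormula N :=
  gl_s20_of N (gl_hypA N) (gl_hypB N)

/-- **S21.** -/
theorem gl_s21 (N : ℕ) [NeZero N] :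
    Function.Injective (periodHomPair N)
      ∧ LinearMap.range (periodHomPair N) = Period.parabolicHoms ℂ (Gamma0 N) ℂ :=
  gl_s21_of N (gl_hypA N) (gl_hypB N)

end Fermat.Agent.S20
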